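import Mathlib

/-!
# W3-PT / PT-GLOB / GLOB-DICT (helper10), part 2: Galois-theoretic plumbing (Mathlib only)

* `h10d_exists_aut` : for `K/L` normal, `ι : K →+* E` and an automorphism `g` of `E` fixing
  `ι L` pointwise there is `σ ∈ Gal(K/L)` with `g ∘ ι = ι ∘ σ`;
* `h10d_norm_eq_prod_pow` : for `K/L` Galois of prime degree `p` and `σ ≠ 1` in `Gal(K/L)`,
  `N_{K/L} y = ∏_{i<p} σ^i y`;
* `h10d_exists_pow_eq` : every element of `Gal(K/L)` is `σ ^ i`, `i < p`;
* `h10d_index_eq_prime` : a subgroup `N` of a commutative group with `a ∉ N`, `a ^ p ∈ N` and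
  `∀ x, ∃ k < p, x * a ^ k ∈ N` has index `p`.
-/

set_option autoImplicit false
set_option linter.style.haveILetI false

namespace Fermat.Agent.PT.Glob

theorem h10d_exists_aut {L K E : Type*} [Field L] [Field K] [Field E] [Algebra L K]
    [Normal L K] (ι : K →+* E) (g : E ≃+* E)
    (hg : ∀ x : L, g (ι (algebraMap L K x)) = ι (algebraMap L K x)) :
    ∃ σ : K ≃ₐ[L] K, ∀ x, g (ι x) = ι (σ x) := by
  letI : Algebra K E := ι.toAlgebra
  letI : Algebra L E := (ι.comp (algebraMap L K)).toAlgebra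
  haveI : IsScalarTower L K E := IsScalarTower.of_algebraMap_eq (fun x => rfl)
  let gL : E ≃ₐ[L] E := AlgEquiv.ofRingEquiv (f := g) hg
  refine ⟨gL.restrictNormal K, fun x => ?_⟩
  exact (AlgEquiv.restrictNormal_commutes gL K x).symm

section cyclic

variable {L K : Type*} [Field L] [Field K] [Algebra L K] [FiniteDimensional L K] [IsGalois L K]

theorem h10d_orderOf_eq {p : ℕ} (hp : p.Prime) (hdeg : Module.finrank L K = p)
    (σ : K ≃ₐ[L] K) (hσ : σ ≠ 1) : orderOf σ = p := by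
  have hcard : Nat.card (K ≃ₐ[L] K) = p := by
    rw [IsGalois.card_aut_eq_finrank, hdeg]
  have hdvd : orderOf σ ∣ p := by
    rw [← hcard]
    exact orderOf_dvd_natCard σ
  rcases (Nat.dvd_prime hp).1 hdvd with h | h
  · exact absurd (orderOf_eq_one_iff.1 h) hσ
  · exact h

theorem h10d_exists_pow_eq {p : ℕ} (hp : p.Prime) (hdeg : Module.finrank L K = p)
    (σ : K ≃ₐ[L] K) (hσ : σ ≠ 1) (τ : K ≃ₐ[L] K) : ∃ i, i < p ∧ τ = σ ^ i := by
  classical
  have hcard : Nat.card (K ≃ₐ[L] K) = p := by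
    rw [IsGalois.card_aut_eq_finrank, hdeg]
  have hord := h10d_orderOf_eq hp hdeg σ hσ
  have htop : Subgroup.zpowers σ = ⊤ := by
    apply Subgroup.eq_top_of_card_eq
    rw [Nat.card_zpowers, hord, hcard]
  have hτ : τ ∈ Subgroup.zpowers σ := by rw [htop]; trivial
  have hpos : 0 < orderOf σ := by rw [hord]; exact hp.pos
  have hfin : IsOfFinOrder σ := orderOf_pos_iff.1 hpos
  obtain ⟨k, hk⟩ := (hfin.mem_zpowers_iff_mem_range_orderOf).1 hτ |> fun h => by
    simpa [Finset.mem_image] using h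
  exact ⟨k, by rw [← hord]; exact hk.1, hk.2.symm⟩

theorem h10d_norm_eq_prod_pow {p : ℕ} (hp : p.Prime) (hdeg : Module.finrank L K = p)
    (σ : K ≃ₐ[L] K) (hσ : σ ≠ 1) (y : K) :
    algebraMap L K (Algebra.norm L y) = ∏ i ∈ Finset.range p, (σ ^ i) y := by
  classical
  have hord := h10d_orderOf_eq hp hdeg σ hσ
  rw [Algebra.norm_eq_prod_automorphisms L y]
  have hinj : Set.InjOn (fun i : ℕ => σ ^ i) (Finset.range p : Set ℕ) := by
    intro i hi j hj hij
    rw [Finset.coe_range, Set.mem_Iio] at hi hj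
    rw [← hord] at hi hj
    exact pow_injOn_Iio_orderOf hi hj hij
  have himg : (Finset.range p).image (fun i : ℕ => σ ^ i) = Finset.univ := by
    apply Finset.eq_univ_of_forall
    intro τ
    obtain ⟨i, hi, rfl⟩ := h10d_exists_pow_eq hp hdeg σ hσ τ
    exact Finset.mem_image.2 ⟨i, Finset.mem_range.2 hi, rfl⟩
  rw [← himg, Finset.prod_image hinj]

end cyclic

theorem h10d_index_eq_prime {A : Type*} [CommGroup A] (N : Subgroup A) {p : ℕ} (hp : p.Prime)
    (a : A) (ha : a ∉ N) (hap : a ^ p ∈ N) (hgen : ∀ x : A, ∃ k, k < p ∧ x * a ^ k ∈ N) :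
    N.index = p := by
  classical
  let π := QuotientGroup.mk' N
  have hπa : π a ≠ 1 := by
    intro h
    exact ha ((QuotientGroup.eq_one_iff a).1 h)
  have hπap : π a ^ p = 1 := by
    rw [← map_pow]
    exact (QuotientGroup.eq_one_iff _).2 hap
  have hord : orderOf (π a) = p := by
    have hdvd : orderOf (π a) ∣ p := orderOf_dvd_of_pow_eq_one hπap
    rcases (Nat.dvd_prime hp).1 hdvd with h | h
    · exact absurd (orderOf_eq_one_iff.1 h) hπa
    · exact h
  have htop : Subgroup.zpowers (π a) = ⊤ := by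
    rw [eq_top_iff]
    intro y _
    obtain ⟨x, rfl⟩ := QuotientGroup.mk'_surjective N y
    obtain ⟨k, -, hk⟩ := hgen x
    have h1 : π (x * a ^ k) = 1 := (QuotientGroup.eq_one_iff _).2 hk
    rw [map_mul, map_pow] at h1
    have h2 : π x = (π a ^ k)⁻¹ := eq_inv_of_mul_eq_one_left h1
    rw [h2]
    exact Subgroup.inv_mem _ (Subgroup.pow_mem _ (Subgroup.mem_zpowers _) k)
  rw [Subgroup.index, ← Nat.card_congr (Equiv.Set.univ _), ← Subgroup.coe_top, ← htop]
  rw [← hord]
  exact Nat.card_zpowers (π a)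

end Fermat.Agent.PT.Glob
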