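import Mathlib
import Fermat.Agent.PT.Glob.GBasic
import Fermat.Agent.PT.Glob.Dict.H10Gal

/-!
# W3-PT / PT-GLOB / GLOB-HNREL (helper10), part 1: a relative cyclic extension is Galois

For `L ≤ K` number fields inside `ℚ̄` with `GIsCyc L K p σ` (`p` prime), the abstract extension
`↥K / ↥L` (algebra structure `h10g_algebra`) is Galois of degree `p`, and `σ` restricts to a
generator.

* `h10g_map_mem` : `G_L` preserves `K`;
* `h10g_restr` : restriction `G_L → Gal(K/L)`;
* `h10g_isGalois`, `h10g_finrank`, `h10g_restr_sigma_ne_one`.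
-/

set_option autoImplicit false
set_option linter.style.haveILetI false
set_option linter.unusedSectionVars false

open Fermat.Agent.Bridge

noncomputable section

namespace Fermat.Agent.PT.Glob

theorem h10g_mem_of_fixed (K : NFd) (x : Qb) (h : ∀ s ∈ GU K, s x = x) : x ∈ K := by
  haveI : IsAlgClosure ℚ Qb := ⟨inferInstance, AlgebraicClosure.isAlgebraic ℚ⟩
  haveI : IsGalois ℚ Qb := IsAlgClosure.isGalois ℚ Qb
  have h1 : x ∈ IntermediateField.fixedField K.fixingSubgroup :=
    (IntermediateField.mem_fixedField_iff _ x).2 h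
  rwa [InfiniteGalois.fixedField_fixingSubgroup] at h1

/-- The algebra structure of `K` over `L` for `L ≤ K`. -/
@[reducible] def h10g_algebra {L K : NFd} (hle : L ≤ K) : Algebra ↥L ↥K :=
  (IntermediateField.inclusion hle).toRingHom.toAlgebra

theorem h10g_algebraMap_coe {L K : NFd} (hle : L ≤ K) (x : ↥L) :
    (((h10g_algebra hle).algebraMap x : ↥K) : Qb) = (x : Qb) := rfl

variable {L K : NFd} {p : ℕ} {σ : GQ}

/-- `G_L` preserves `K`. -/
theorem h10g_map_mem (h : GIsCyc L K p σ) {g : GQ} (hg : g ∈ GU L) {x : Qb} (hx : x ∈ K) :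
    g x ∈ K := by
  apply h10g_mem_of_fixed
  intro s hs
  have h1 : g⁻¹ * s * g ∈ GU K := by
    have := h.normal g⁻¹ (inv_mem hg) s hs
    rwa [inv_inv] at this
  have h2 : (g⁻¹ * s * g) x = x := (IntermediateField.mem_fixingSubgroup_iff K _).1 h1 x hx
  have h3 : s (g x) = g ((g⁻¹ * s * g) x) := by
    simp only [AlgEquiv.mul_apply]
    rw [← AlgEquiv.mul_apply g g⁻¹, mul_inv_cancel, AlgEquiv.one_apply]
  rw [h3, h2]

/-- The restriction of `g ∈ G_L` to `K`. -/
def h10g_restr (h : GIsCyc L K p σ) (g : GQ) (hg : g ∈ GU L) :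
    letI := h10g_algebra h.le
    ↥K ≃ₐ[↥L] ↥K :=
  letI := h10g_algebra h.le
  { toFun := fun x => ⟨g x, h10g_map_mem h hg x.2⟩
    invFun := fun x => ⟨g⁻¹ x, h10g_map_mem h (inv_mem hg) x.2⟩
    left_inv := fun x => by
      apply Subtype.ext
      change g⁻¹ (g (x : Qb)) = x
      rw [← AlgEquiv.mul_apply, inv_mul_cancel, AlgEquiv.one_apply]
    right_inv := fun x => by
      apply Subtype.ext
      change g (g⁻¹ (x : Qb)) = x
      rw [← AlgEquiv.mul_apply, mul_inv_cancel, AlgEquiv.one_apply]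
    map_mul' := fun x y => by
      apply Subtype.ext
      change g ((x : Qb) * (y : Qb)) = g x * g y
      exact map_mul g _ _
    map_add' := fun x y => by
      apply Subtype.ext
      change g ((x : Qb) + (y : Qb)) = g x + g y
      exact map_add g _ _
    commutes' := fun r => by
      apply Subtype.ext
      change g (r : Qb) = (r : Qb)
      exact (IntermediateField.mem_fixingSubgroup_iff L g).1 hg r r.2 }

theorem h10g_restr_coe (h : GIsCyc L K p σ) (g : GQ) (hg : g ∈ GU L) (x : ↥K) :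
    ((h10g_restr h g hg x : ↥K) : Qb) = g (x : Qb) := rfl

theorem h10g_restr_pow_coe (h : GIsCyc L K p σ) (g : GQ) (hg : g ∈ GU L) (i : ℕ) (x : ↥K) :
    letI := h10g_algebra h.le
    ((((h10g_restr h g hg) ^ i) x : ↥K) : Qb) = (g ^ i) (x : Qb) := by
  letI := h10g_algebra h.le
  induction i generalizing x with
  | zero => simp
  | succ i ih =>
    rw [pow_succ, pow_succ, AlgEquiv.mul_apply, AlgEquiv.mul_apply, ih, h10g_restr_coe]

theorem h10g_sigma_pow_mem (h : GIsCyc L K p σ) : σ ^ p ∈ GU K := by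
  obtain ⟨i, hi, hmem⟩ := h.gen (σ ^ p) (pow_mem h.mem p)
  rcases Nat.eq_zero_or_pos i with rfl | hipos
  · simpa using hmem
  · exfalso
    have h1 : (σ ^ i)⁻¹ * σ ^ p = σ ^ (p - i) := by
      rw [inv_mul_eq_iff_eq_mul, ← pow_add]
      congr 1
      omega
    rw [h1] at hmem
    exact h.ord (p - i) (by omega) (by omega) hmem

theorem h10g_isScalarTower {L K : NFd} (hle : L ≤ K) :
    letI := h10g_algebra hle
    IsScalarTower ℚ ↥L ↥K := by
  letI := h10g_algebra hle
  exact IsScalarTower.of_algebraMap_eq (fun x => Subtype.ext rfl)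

theorem h10g_isScalarTower' {L K : NFd} (hle : L ≤ K) :
    letI := h10g_algebra hle
    IsScalarTower ↥L ↥K Qb := by
  letI := h10g_algebra hle
  exact IsScalarTower.of_algebraMap_eq (fun x => rfl)

theorem h10g_finiteDimensional (h : GIsCyc L K p σ) :
    letI := h10g_algebra h.le
    FiniteDimensional ↥L ↥K := by
  letI := h10g_algebra h.le
  haveI : FiniteDimensional ℚ ↥K := h.fin
  haveI := h10g_isScalarTower h.le
  exact FiniteDimensional.right ℚ ↥L ↥K

/-- A relative cyclic extension is Galois. -/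
theorem h10g_isGalois (h : GIsCyc L K p σ) :
    letI := h10g_algebra h.le
    IsGalois ↥L ↥K := by
  letI := h10g_algebra h.le
  haveI := h10g_finiteDimensional h
  apply IsGalois.of_fixedField_eq_bot
  rw [eq_bot_iff]
  intro x hx
  rw [IntermediateField.mem_fixedField_iff] at hx
  have hxL : (x : Qb) ∈ L := by
    apply h10g_mem_of_fixed
    intro g hg
    have := hx (h10g_restr h g hg) (Subgroup.mem_top _)
    exact congrArg Subtype.val this
  rw [IntermediateField.mem_bot]
  exact ⟨⟨x, hxL⟩, Subtype.ext rfl⟩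

/-- Every automorphism of `K / L` is a power of the restriction of `σ`. -/
theorem h10g_exists_pow (h : GIsCyc L K p σ) :
    letI := h10g_algebra h.le
    ∀ τ : ↥K ≃ₐ[↥L] ↥K, ∃ i, i < p ∧ τ = (h10g_restr h σ h.mem) ^ i := by
  letI := h10g_algebra h.le
  intro τ
  haveI := h10g_isScalarTower' h.le
  haveI : IsAlgClosure ℚ Qb := ⟨inferInstance, AlgebraicClosure.isAlgebraic ℚ⟩
  haveI : Normal ℚ Qb := IsAlgClosure.normal ℚ Qb
  haveI : Normal ↥L Qb := Normal.tower_top_of_normal ℚ ↥L Qb
  let g₀ : Qb ≃ₐ[↥L] Qb := τ.liftNormal Qb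
  let g : GQ := g₀.restrictScalars ℚ
  have hgx : ∀ x : ↥K, g (x : Qb) = ((τ x : ↥K) : Qb) := fun x =>
    AlgEquiv.liftNormal_commutes τ Qb x
  have hg : g ∈ GU L := by
    rw [IntermediateField.mem_fixingSubgroup_iff]
    intro x hx
    exact g₀.commutes ⟨x, hx⟩
  obtain ⟨i, hi, hmem⟩ := h.gen g hg
  refine ⟨i, hi, ?_⟩
  ext x
  rw [h10g_restr_pow_coe, ← hgx]
  have h1 : ((σ ^ i)⁻¹ * g) (x : Qb) = x :=
    (IntermediateField.mem_fixingSubgroup_iff K _).1 hmem x x.2
  rw [AlgEquiv.mul_apply] at h1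
  have h2 := congrArg (σ ^ i) h1
  rw [← AlgEquiv.mul_apply, mul_inv_cancel, AlgEquiv.one_apply] at h2
  exact h2

theorem h10g_restr_sigma_ne_one (hp : p.Prime) (h : GIsCyc L K p σ) :
    letI := h10g_algebra h.le
    h10g_restr h σ h.mem ≠ 1 := by
  letI := h10g_algebra h.le
  intro h1
  apply h.ord 1 Nat.one_pos hp.one_lt
  rw [pow_one, IntermediateField.mem_fixingSubgroup_iff]
  intro x hx
  have := congrArg (fun τ : ↥K ≃ₐ[↥L] ↥K => ((τ ⟨x, hx⟩ : ↥K) : Qb)) h1
  exact this

theorem h10g_restr_sigma_pow (h : GIsCyc L K p σ) :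
    letI := h10g_algebra h.le
    (h10g_restr h σ h.mem) ^ p = 1 := by
  letI := h10g_algebra h.le
  ext x
  rw [h10g_restr_pow_coe, AlgEquiv.one_apply]
  exact (IntermediateField.mem_fixingSubgroup_iff K _).1 (h10g_sigma_pow_mem h) x x.2

/-- A relative cyclic extension of prime degree `p` has degree `p`. -/
theorem h10g_finrank (hp : p.Prime) (h : GIsCyc L K p σ) :
    letI := h10g_algebra h.le
    Module.finrank ↥L ↥K = p := by
  letI := h10g_algebra h.le
  haveI := h10g_finiteDimensional h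
  haveI := h10g_isGalois h
  rw [← IsGalois.card_aut_eq_finrank]
  set s := h10g_restr h σ h.mem with hs
  have hord : orderOf s = p := by
    have hdvd : orderOf s ∣ p := orderOf_dvd_of_pow_eq_one (h10g_restr_sigma_pow h)
    rcases (Nat.dvd_prime hp).1 hdvd with h1 | h1
    · exact absurd (orderOf_eq_one_iff.1 h1) (h10g_restr_sigma_ne_one hp h)
    · exact h1
  have htop : Subgroup.zpowers s = ⊤ := by
    rw [eq_top_iff]
    intro τ _
    obtain ⟨i, -, rfl⟩ := h10g_exists_pow h τ
    exact Subgroup.pow_mem _ (Subgroup.mem_zpowers _) i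
  rw [← Nat.card_congr (Equiv.Set.univ _), ← Subgroup.coe_top, ← htop]
  exact (Nat.card_zpowers s).trans hord

end Fermat.Agent.PT.Glob
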