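import Mathlib
import Fermat.Agent.PT.Loc.Basic

/-!
# W3-PT / PT-GLOB / GLOB-DICT (helper10), part 1: embeddings of a number field into `Om q`

For an abstract number field `F`, a prime `q` and a ring homomorphism `ι : F →+* Om q`
(`Om q = PadicAlgCl q`):

* `h10d_norm_le_one` : `‖ι x‖ ≤ 1` for `x ∈ 𝓞 F`;
* `h10d_place ι` : the prime of `𝓞 F` induced by `ι` (`{x | ‖ι x‖ < 1}`);
* `h10d_Induces ι v` : `ι` induces `v`;
* `h10d_val_norm` : if `ι` induces `v` then `‖ι x‖ = c ^ n` where `v.valuation F x = exp (-n)`;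
* `h10d_exists_induces` : every prime `v` of `𝓞 F` containing `q` is induced by some `ι`.
-/

set_option autoImplicit false

open NumberField IsDedekindDomain

namespace Fermat.Agent.PT.Glob

open Fermat.Agent.PT.Loc

noncomputable section

variable {q : ℕ} [Fact q.Prime]

/-- Integral elements of `Om q` have norm at most one. -/
theorem h10d_norm_le_one_of_isIntegral {z : Om q} (hz : IsIntegral ℤ z) : ‖z‖ ≤ 1 := by
  have h1 : IsIntegral (padicIntegers q) z := hz.tower_top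
  obtain ⟨y, hy⟩ := IsIntegrallyClosed.isIntegral_iff.mp h1
  have h2 : z ∈ padicIntegers q := by rw [← hy]; exact y.2
  exact_mod_cast (mem_padicIntegers_iff q).1 h2

variable {F : Type} [Field F] [NumberField F]

omit [NumberField F] in
theorem h10d_norm_le_one (ι : F →+* Om q) (x : 𝓞 F) : ‖ι (x : F)‖ ≤ 1 :=
  h10d_norm_le_one_of_isIntegral (map_isIntegral_int ι (RingOfIntegers.isIntegral_coe x))

theorem h10d_norm_natCast_q : ‖((q : ℕ) : Om q)‖ < 1 := by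
  have h : ((q : ℕ) : Om q) = algebraMap ℚ_[q] (Om q) (q : ℚ_[q]) := by simp
  rw [h, norm_algebraMap']
  exact Padic.norm_p_lt_one

/-- The prime ideal of `𝓞 F` induced by `ι`. -/
def h10d_ideal (ι : F →+* Om q) : Ideal (𝓞 F) where
  carrier := {x | ‖ι (x : F)‖ < 1}
  zero_mem' := by simp
  add_mem' := by
    intro a b ha hb
    change ‖ι (a : F)‖ < 1 at ha
    change ‖ι (b : F)‖ < 1 at hb
    change ‖ι ((a + b : 𝓞 F) : F)‖ < 1
    have : ι ((a + b : 𝓞 F) : F) = ι (a : F) + ι (b : F) := by simp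
    rw [this]
    exact lt_of_le_of_lt (IsUltrametricDist.norm_add_le_max _ _) (max_lt ha hb)
  smul_mem' := by
    intro c x hx
    change ‖ι (x : F)‖ < 1 at hx
    change ‖ι ((c * x : 𝓞 F) : F)‖ < 1
    have : ι ((c * x : 𝓞 F) : F) = ι (c : F) * ι (x : F) := by simp
    rw [this, norm_mul]
    calc ‖ι (c : F)‖ * ‖ι (x : F)‖ ≤ 1 * ‖ι (x : F)‖ :=
          mul_le_mul_of_nonneg_right (h10d_norm_le_one ι c) (norm_nonneg _)
      _ < 1 := by rwa [one_mul]

theorem h10d_mem_ideal (ι : F →+* Om q) (x : 𝓞 F) :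
    x ∈ h10d_ideal ι ↔ ‖ι (x : F)‖ < 1 := Iff.rfl

theorem h10d_ideal_isPrime (ι : F →+* Om q) : (h10d_ideal ι).IsPrime := by
  refine ⟨?_, ?_⟩
  · intro h
    have h1 : (1 : 𝓞 F) ∈ h10d_ideal ι := by rw [h]; trivial
    rw [h10d_mem_ideal] at h1
    simp at h1
  · intro a b hab
    rw [h10d_mem_ideal] at hab
    have : ι ((a * b : 𝓞 F) : F) = ι (a : F) * ι (b : F) := by simp
    rw [this, norm_mul] at hab
    by_contra hcon
    rw [not_or] at hcon
    have ha : ‖ι (a : F)‖ = 1 :=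
      le_antisymm (h10d_norm_le_one ι a) (not_lt.1 (fun h => hcon.1 ((h10d_mem_ideal ι a).2 h)))
    have hb : ‖ι (b : F)‖ = 1 :=
      le_antisymm (h10d_norm_le_one ι b) (not_lt.1 (fun h => hcon.2 ((h10d_mem_ideal ι b).2 h)))
    rw [ha, hb] at hab
    norm_num at hab

theorem h10d_q_mem_ideal (ι : F →+* Om q) : ((q : ℕ) : 𝓞 F) ∈ h10d_ideal ι := by
  rw [h10d_mem_ideal]
  have : ι (((q : ℕ) : 𝓞 F) : F) = ((q : ℕ) : Om q) := by simp
  rw [this]
  exact h10d_norm_natCast_q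

theorem h10d_ideal_ne_bot (ι : F →+* Om q) : h10d_ideal ι ≠ ⊥ := by
  intro h
  have h1 := h10d_q_mem_ideal ι
  rw [h, Ideal.mem_bot] at h1
  have h2 : ((q : ℕ) : 𝓞 F) ≠ 0 := by
    exact_mod_cast (Nat.cast_ne_zero (R := 𝓞 F)).2 (Fact.out : q.Prime).ne_zero
  exact h2 h1

/-- The place of `F` induced by `ι`. -/
def h10d_place (ι : F →+* Om q) : HeightOneSpectrum (𝓞 F) where
  asIdeal := h10d_ideal ι
  isPrime := h10d_ideal_isPrime ι
  ne_bot := h10d_ideal_ne_bot ι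

/-- `ι` induces the place `v`. -/
def h10d_Induces (ι : F →+* Om q) (v : HeightOneSpectrum (𝓞 F)) : Prop :=
  ∀ x : 𝓞 F, x ∈ v.asIdeal ↔ ‖ι (x : F)‖ < 1

theorem h10d_induces_place (ι : F →+* Om q) : h10d_Induces ι (h10d_place ι) :=
  fun _ => Iff.rfl

theorem h10d_induces_iff (ι : F →+* Om q) (v : HeightOneSpectrum (𝓞 F)) :
    h10d_Induces ι v ↔ v = h10d_place ι := by
  constructor
  · intro h
    apply HeightOneSpectrum.ext
    ext x
    exact h x
  · rintro rfl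
    exact h10d_induces_place ι

/-! ## The valuation formula -/

theorem h10d_norm_le_one_of_val_le_one {ι : F →+* Om q} {v : HeightOneSpectrum (𝓞 F)}
    (hv : h10d_Induces ι v) {x : F} (hx : v.valuation F x ≤ 1) : ‖ι x‖ ≤ 1 := by
  obtain ⟨n, d, hnd⟩ := v.exists_primeCompl_mul_eq_of_integer x hx
  have hd : ‖ι ((d : 𝓞 F) : F)‖ = 1 :=
    le_antisymm (h10d_norm_le_one ι d) (not_lt.1 fun h => d.2 ((hv d).2 h))
  have h : ‖ι x‖ * ‖ι ((d : 𝓞 F) : F)‖ = ‖ι ((n : 𝓞 F) : F)‖ := by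
    rw [← norm_mul, ← map_mul]
    exact congrArg (fun z => ‖ι z‖) hnd
  rw [hd, mul_one] at h
  rw [h]
  exact h10d_norm_le_one ι n

theorem h10d_norm_eq_one_of_val_eq_one {ι : F →+* Om q} {v : HeightOneSpectrum (𝓞 F)}
    (hv : h10d_Induces ι v) {x : F} (hx : v.valuation F x = 1) : ‖ι x‖ = 1 := by
  have hx0 : x ≠ 0 := by
    rintro rfl
    simp at hx
  have h1 := h10d_norm_le_one_of_val_le_one hv hx.le
  have h2 : ‖ι x⁻¹‖ ≤ 1 :=
    h10d_norm_le_one_of_val_le_one hv (by rw [map_inv₀, hx, inv_one])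
  rw [map_inv₀, norm_inv] at h2
  have hpos : 0 < ‖ι x‖ := norm_pos_iff.2 ((map_ne_zero ι).2 hx0)
  exact le_antisymm h1 ((inv_le_one₀ hpos).1 h2)

/-- **Valuation formula**: if `ι` induces `v` then `‖ι x‖ = c ^ n` whenever
`v.valuation F x = exp (-n)`, for a constant `0 < c < 1`. -/
theorem h10d_val_norm {ι : F →+* Om q} {v : HeightOneSpectrum (𝓞 F)}
    (hv : h10d_Induces ι v) :
    ∃ c : ℝ, 0 < c ∧ c < 1 ∧ ∀ x : F, x ≠ 0 →
      ∃ n : ℤ, v.valuation F x = WithZero.exp (-n) ∧ ‖ι x‖ = c ^ n := by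
  obtain ⟨π, hπ⟩ := v.intValuation_exists_uniformizer
  have hπv : v.valuation F ((π : 𝓞 F) : F) = WithZero.exp (-1 : ℤ) := by
    rw [← hπ]
    exact v.valuation_of_algebraMap π
  have hπ0 : ((π : 𝓞 F) : F) ≠ 0 := by
    intro h
    rw [h, map_zero] at hπv
    exact WithZero.exp_ne_zero hπv.symm
  have hπmem : π ∈ v.asIdeal := by
    rw [← v.intValuation_lt_one_iff_mem, hπ, ← WithZero.exp_zero, WithZero.exp_lt_exp]
    norm_num
  refine ⟨‖ι ((π : 𝓞 F) : F)‖, norm_pos_iff.2 ((map_ne_zero ι).2 hπ0), (hv π).1 hπmem, ?_⟩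
  intro x hx
  have hvx : v.valuation F x ≠ 0 := (Valuation.ne_zero_iff _).2 hx
  refine ⟨-WithZero.log (v.valuation F x), by rw [neg_neg, WithZero.exp_log hvx], ?_⟩
  set n : ℤ := -WithZero.log (v.valuation F x) with hn
  have hu : v.valuation F (x / ((π : 𝓞 F) : F) ^ n) = 1 := by
    rw [map_div₀, map_zpow₀, hπv, ← WithZero.exp_zsmul, smul_eq_mul, mul_neg, mul_one, hn,
      neg_neg, WithZero.exp_log hvx]
    exact div_self hvx
  have h1 := h10d_norm_eq_one_of_val_eq_one hv hu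
  rw [map_div₀, map_zpow₀, norm_div, norm_zpow] at h1
  have hc : ‖ι ((π : 𝓞 F) : F)‖ ^ n ≠ 0 :=
    zpow_ne_zero _ (norm_ne_zero_iff.2 ((map_ne_zero ι).2 hπ0))
  rw [div_eq_one_iff_eq hc] at h1
  exact h1

/-! ## Existence of an embedding inducing a given place -/

theorem h10d_q_dvd_absNorm (v : HeightOneSpectrum (𝓞 F))
    (hq : ((q : ℕ) : 𝓞 F) ∈ v.asIdeal) : (q : ℤ) ∣ (Ideal.absNorm v.asIdeal : ℤ) := by
  by_contra hnd
  have hprime : Prime (q : ℤ) := Nat.prime_iff_prime_int.1 (Fact.out : q.Prime)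
  have hcop : IsCoprime (q : ℤ) (Ideal.absNorm v.asIdeal : ℤ) :=
    (Prime.coprime_iff_not_dvd hprime).2 hnd
  obtain ⟨a, b, hab⟩ := hcop
  have h1 : ((a * (q : ℤ) + b * (Ideal.absNorm v.asIdeal : ℤ) : ℤ) : 𝓞 F) ∈ v.asIdeal := by
    push_cast
    exact v.asIdeal.add_mem (v.asIdeal.mul_mem_left _ hq)
      (v.asIdeal.mul_mem_left _ (Ideal.absNorm_mem v.asIdeal))
  rw [hab] at h1
  exact v.isPrime.ne_top ((Ideal.eq_top_iff_one _).2 (by simpa using h1))

/-- **Existence**: every prime of `𝓞 F` containing `q` is induced by an embedding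
`F →+* Om q`. -/
theorem h10d_exists_induces (v : HeightOneSpectrum (𝓞 F))
    (hq : ((q : ℕ) : 𝓞 F) ∈ v.asIdeal) : ∃ ι : F →+* Om q, h10d_Induces ι v := by
  classical
  by_contra hcon
  rw [not_exists] at hcon
  have hnle : ∀ ι : F →ₐ[ℚ] Om q, ¬ v.asIdeal ≤ h10d_ideal (ι : F →+* Om q) := by
    intro ι hle
    have heq : v.asIdeal = h10d_ideal (ι : F →+* Om q) :=
      v.isMaximal.eq_of_le (h10d_ideal_isPrime _).ne_top hle
    exact hcon ι ((h10d_induces_iff _ v).2 (HeightOneSpectrum.ext heq))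
  have ι₀ : F →ₐ[ℚ] Om q := IsAlgClosed.lift
  have hav : ¬ ((v.asIdeal : Set (𝓞 F)) ⊆
      ⋃ ι ∈ ((Finset.univ : Finset (F →ₐ[ℚ] Om q)) : Set (F →ₐ[ℚ] Om q)),
        (h10d_ideal (ι : F →+* Om q) : Set (𝓞 F))) := by
    rw [Ideal.subset_union_prime ι₀ ι₀ (fun i _ _ _ => h10d_ideal_isPrime _)]
    rintro ⟨i, -, hi⟩
    exact hnle i hi
  rw [Set.not_subset] at hav
  obtain ⟨x, hxv, hx⟩ := hav
  have hx1 : ∀ ι : F →ₐ[ℚ] Om q, ‖ι (x : F)‖ = 1 := by
    intro ι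
    refine le_antisymm (h10d_norm_le_one (ι : F →+* Om q) x) (not_lt.1 fun h => hx ?_)
    simp only [Finset.coe_univ, Set.mem_univ, Set.iUnion_true, Set.mem_iUnion]
    exact ⟨ι, h⟩
  have hN := Algebra.norm_eq_prod_embeddings ℚ (Om q) (x : F)
  have hN1 : ‖algebraMap ℚ (Om q) (Algebra.norm ℚ (x : F))‖ = 1 := by
    rw [hN, norm_prod]
    exact Finset.prod_eq_one fun ι _ => hx1 ι
  have hZ : Algebra.norm ℚ (x : F) = ((Algebra.norm ℤ x : ℤ) : ℚ) :=
    (Algebra.coe_norm_int x).symm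
  obtain ⟨m, hm⟩ := (h10d_q_dvd_absNorm v hq).trans (Ideal.absNorm_dvd_norm_of_mem hxv)
  rw [hZ, hm] at hN1
  have h2 : algebraMap ℚ (Om q) (((q : ℤ) * m : ℤ) : ℚ) = ((q : ℕ) : Om q) * (m : Om q) := by
    push_cast
    simp
  rw [h2, norm_mul] at hN1
  have hm1 : ‖(m : Om q)‖ ≤ 1 :=
    h10d_norm_le_one_of_isIntegral (by
      have : (m : Om q) = algebraMap ℤ (Om q) m := by simp
      rw [this]
      exact isIntegral_algebraMap)
  have hq1 := h10d_norm_natCast_q (q := q)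
  have : ‖((q : ℕ) : Om q)‖ * ‖(m : Om q)‖ < 1 := by
    calc ‖((q : ℕ) : Om q)‖ * ‖(m : Om q)‖ ≤ ‖((q : ℕ) : Om q)‖ * 1 :=
          mul_le_mul_of_nonneg_left hm1 (norm_nonneg _)
      _ < 1 := by rwa [mul_one]
  rw [hN1] at this
  exact lt_irrefl _ this

end

end Fermat.Agent.PT.Glob
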