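import Mathlib
import Fermat.Agent.PT.Loc.Basic

/-!
# W3-PT / PT-GLOB / GLOB-DICT (helper10), part 3: the local field generated by an embedding

For a number field `F` and `ι : F →+* Om q`:

* `h10d_loc ι : LF q` : the local field `ℚ_q(ι F)`;
* `h10d_loc_finiteDimensional` : it is finite over `ℚ_q`;
* `h10d_loc_isClosed` : it is closed in `Om q`;
* `h10d_dense` : `ι F` is dense in it (ε-form);
* `h10d_mem_loc_of_tendsto` : an element approximated by `ι F` lies in it.
-/

set_option autoImplicit false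
set_option linter.style.haveILetI false

open NumberField

namespace Fermat.Agent.PT.Glob

open Fermat.Agent.PT.Loc

noncomputable section

variable {q : ℕ} [Fact q.Prime] {F : Type} [Field F] [NumberField F]

/-- The local field `ℚ_q(ι F)`. -/
def h10d_loc (ι : F →+* Om q) : LF q := IntermediateField.adjoin ℚ_[q] (Set.range ι)

omit [NumberField F] in
theorem h10d_mem_loc (ι : F →+* Om q) (x : F) : ι x ∈ h10d_loc ι :=
  IntermediateField.subset_adjoin _ _ ⟨x, rfl⟩

theorem h10d_ratCast (ι : F →+* Om q) (r : ℚ) :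
    ι (algebraMap ℚ F r) = algebraMap ℚ_[q] (Om q) (r : ℚ_[q]) := by
  have h1 : ι (algebraMap ℚ F r) = (r : Om q) := by
    rw [eq_ratCast, map_ratCast]
  rw [h1, map_ratCast]

theorem h10d_loc_eq_adjoin_primitive (ι : F →+* Om q) {α : F}
    (hα : IntermediateField.adjoin ℚ {α} = ⊤) :
    h10d_loc ι = IntermediateField.adjoin ℚ_[q] {ι α} := by
  apply le_antisymm
  · apply IntermediateField.adjoin_le_iff.2
    rintro _ ⟨x, rfl⟩
    have hx : x ∈ IntermediateField.adjoin ℚ {α} := by rw [hα]; trivial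
    induction hx using IntermediateField.adjoin_induction with
    | mem z hz =>
      rw [Set.mem_singleton_iff] at hz
      subst hz
      exact IntermediateField.subset_adjoin _ _ (Set.mem_singleton _)
    | algebraMap r =>
      rw [h10d_ratCast]
      exact IntermediateField.algebraMap_mem _ _
    | add a b _ _ ha hb =>
      rw [map_add]
      exact add_mem ha hb
    | inv a _ ha =>
      rw [map_inv₀]
      exact inv_mem ha
    | mul a b _ _ ha hb =>
      rw [map_mul]
      exact mul_mem ha hb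
  · apply IntermediateField.adjoin.mono
    rintro _ rfl
    exact ⟨α, rfl⟩

instance h10d_loc_finiteDimensional (ι : F →+* Om q) :
    FiniteDimensional ℚ_[q] (h10d_loc ι) := by
  obtain ⟨α, hα⟩ := Field.exists_primitive_element ℚ F
  rw [h10d_loc_eq_adjoin_primitive ι hα]
  exact IntermediateField.adjoin.finiteDimensional (Algebra.IsIntegral.isIntegral _)

theorem h10d_isClosed (K : LF q) [FiniteDimensional ℚ_[q] K] :
    IsClosed (K : Set (Om q)) := by
  have : FiniteDimensional ℚ_[q] (K.toSubalgebra.toSubmodule) := ‹FiniteDimensional ℚ_[q] K›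
  exact Submodule.closed_of_finiteDimensional (K.toSubalgebra.toSubmodule)

theorem h10d_loc_isClosed (ι : F →+* Om q) : IsClosed ((h10d_loc ι : LF q) : Set (Om q)) :=
  h10d_isClosed _

theorem h10d_loc_subset_closure (ι : F →+* Om q) :
    ((h10d_loc ι : LF q) : Set (Om q)) ⊆ closure (Set.range ι) := by
  let T : Subring (Om q) := ι.range.topologicalClosure
  have hT : (T : Set (Om q)) = closure (Set.range ι) := by
    rfl
  have hQ : ∀ c : ℚ_[q], algebraMap ℚ_[q] (Om q) c ∈ T := by
    intro c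
    have hc : c ∈ closure (Set.range (Rat.cast : ℚ → ℚ_[q])) := Padic.denseRange_ratCast q c
    have hcont : Continuous (algebraMap ℚ_[q] (Om q)) := continuous_algebraMap ℚ_[q] (Om q)
    have hmaps : Set.MapsTo (algebraMap ℚ_[q] (Om q)) (Set.range (Rat.cast : ℚ → ℚ_[q]))
        (Set.range ι) := by
      rintro _ ⟨r, rfl⟩
      exact ⟨algebraMap ℚ F r, h10d_ratCast ι r⟩
    have := map_mem_closure hcont hc hmaps
    rw [← hT] at this
    exact this
  let A : Subalgebra ℚ_[q] (Om q) := { T.toSubsemiring with algebraMap_mem' := hQ }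
  have h1 : Algebra.adjoin ℚ_[q] (Set.range ι) ≤ A := by
    apply Algebra.adjoin_le
    intro x hx
    have : x ∈ closure (Set.range ι) := subset_closure hx
    rw [← hT] at this
    exact this
  have h2 : (h10d_loc ι).toSubalgebra = Algebra.adjoin ℚ_[q] (Set.range ι) :=
    IntermediateField.adjoin_toSubalgebra_of_isAlgebraic
      (fun x _ => Algebra.IsAlgebraic.isAlgebraic x)
  intro x hx
  have h3 : x ∈ (h10d_loc ι).toSubalgebra := hx
  rw [h2] at h3
  have h4 : x ∈ T := h1 h3
  rw [← hT]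
  exact h4

/-- `ι F` is dense in `ℚ_q(ι F)`. -/
theorem h10d_dense (ι : F →+* Om q) {x : Om q} (hx : x ∈ h10d_loc ι) {ε : ℝ} (hε : 0 < ε) :
    ∃ y : F, ‖ι y - x‖ < ε := by
  have h := h10d_loc_subset_closure ι hx
  rw [Metric.mem_closure_iff] at h
  obtain ⟨_, ⟨y, rfl⟩, hy⟩ := h ε hε
  refine ⟨y, ?_⟩
  rw [← dist_eq_norm, dist_comm]
  exact hy

/-- Dense approximation by nonzero elements, relative form: `‖ι y / x - 1‖ < ε`. -/
theorem h10d_dense_div (ι : F →+* Om q) {x : Om q} (hx : x ∈ h10d_loc ι) (hx0 : x ≠ 0)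
    {ε : ℝ} (hε : 0 < ε) (hε1 : ε ≤ 1) : ∃ y : F, y ≠ 0 ∧ ‖ι y / x - 1‖ < ε := by
  have hxpos : 0 < ‖x‖ := norm_pos_iff.2 hx0
  obtain ⟨y, hy⟩ := h10d_dense ι hx (mul_pos hε hxpos)
  have h1 : ‖ι y / x - 1‖ < ε := by
    have : ι y / x - 1 = (ι y - x) / x := by field_simp
    rw [this, norm_div, div_lt_iff₀ hxpos]
    exact hy
  refine ⟨y, ?_, h1⟩
  rintro rfl
  rw [map_zero, zero_div, zero_sub, norm_neg, norm_one] at h1
  exact absurd h1 (not_lt.2 hε1)

/-- An element of `Om q` which is approximated by a local field lies in it. -/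
theorem h10d_mem_of_approx (K : LF q) [FiniteDimensional ℚ_[q] K] {x : Om q}
    (h : ∀ ε : ℝ, 0 < ε → ∃ y ∈ K, ‖y - x‖ < ε) : x ∈ K := by
  have hcl : x ∈ closure (K : Set (Om q)) := by
    rw [Metric.mem_closure_iff]
    intro ε hε
    obtain ⟨y, hy, hyx⟩ := h ε hε
    refine ⟨y, hy, ?_⟩
    rw [dist_eq_norm, ← norm_neg, neg_sub]
    exact hyx
  rw [(h10d_isClosed K).closure_eq] at hcl
  exact hcl

end

end Fermat.Agent.PT.Glob
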