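import Mathlib
import Fermat.Agent.PT.Loc.Iface
import Fermat.Agent.PT.Loc.H74NIDich
import Fermat.Agent.PT.Glob.Dict.H10Emb
import Fermat.Agent.PT.Glob.Dict.H10Gal
import Fermat.Agent.PT.Glob.Dict.H10Top

/-!
# W3-PT / PT-GLOB / GLOB-DICT (helper10), part 4: the local cyclic extension at a nonsplit place

`K / L` Galois of prime degree `p` (abstract number fields), `ι : K →+* Om q`,
`L_v = h10d_loc (h10d_res L ι)`, `K_w = h10d_loc ι`, `v` the place of `L` induced by `ι`.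

* `h10d_place_mem_primesOver` : the place of `K` induced by `ι` lies over `v`;
* `h10d_isometry` : if `v` has only one prime above, `‖ι (σ x)‖ = ‖ι x‖` for `σ ∈ Gal(K/L)`;
* `h10d_exists_lift` : if `v` has only one prime above, every `σ ∈ Gal(K/L)` is induced by some
  `g ∈ GK L_v`;
* `h10d_isCyc` : then `IsCyc L_v K_w p g` for `g` inducing a generator;
* `h10d_normAlong_eq` : `normAlong g p (ι y) = ι (N_{K/L} y)`.
-/

set_option autoImplicit false
set_option linter.style.haveILetI false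
set_option linter.unusedSectionVars false

open NumberField IsDedekindDomain

namespace Fermat.Agent.PT.Glob

open Fermat.Agent.PT.Loc

noncomputable section

variable {q : ℕ} [Fact q.Prime]
variable {L K : Type} [Field L] [NumberField L] [Field K] [NumberField K] [Algebra L K]

/-- The restriction of `ι : K →+* Om q` to `L`. -/
def h10d_res (L : Type) {K : Type} [Field L] [Field K] [Algebra L K] (ι : K →+* Om q) :
    L →+* Om q := ι.comp (algebraMap L K)

theorem h10d_res_apply (ι : K →+* Om q) (x : L) : h10d_res L ι x = ι (algebraMap L K x) := rfl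

theorem h10d_loc_res_le (ι : K →+* Om q) : h10d_loc (h10d_res L ι) ≤ h10d_loc ι := by
  apply IntermediateField.adjoin.mono
  rintro _ ⟨x, rfl⟩
  exact ⟨algebraMap L K x, rfl⟩

/-- `g` fixes `ℚ_q(ι F)` iff it fixes `ι F` pointwise. -/
theorem h10d_mem_GK_loc_iff {F : Type} [Field F] (ι : F →+* Om q) (g : Gq q) :
    g ∈ GK (h10d_loc ι) ↔ ∀ x, g (ι x) = ι x := by
  rw [IntermediateField.mem_fixingSubgroup_iff]
  constructor
  · intro h x
    exact h _ (IntermediateField.subset_adjoin _ _ ⟨x, rfl⟩)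
  · intro h x hx
    induction hx using IntermediateField.adjoin_induction with
    | mem z hz =>
      obtain ⟨y, rfl⟩ := hz
      exact h y
    | algebraMap c => simp
    | add a b _ _ ha hb => simp [ha, hb]
    | inv a _ ha => simp [ha]
    | mul a b _ _ ha hb => simp [ha, hb]

theorem h10d_coe_algebraMap (x : 𝓞 L) :
    ((algebraMap (𝓞 L) (𝓞 K) x : 𝓞 K) : K) = algebraMap L K (x : L) := rfl

/-- The place of `K` induced by `ι` lies over the place of `L` induced by `ι`. -/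
theorem h10d_place_mem_primesOver (ι : K →+* Om q) (v : HeightOneSpectrum (𝓞 L))
    (hv : h10d_Induces (h10d_res L ι) v) :
    (h10d_place ι).asIdeal ∈ v.asIdeal.primesOver (𝓞 K) := by
  refine ⟨(h10d_place ι).isPrime, ⟨?_⟩⟩
  ext x
  rw [Ideal.under_def, Ideal.mem_comap]
  change x ∈ v.asIdeal ↔ ‖ι ((algebraMap (𝓞 L) (𝓞 K) x : 𝓞 K) : K)‖ < 1
  rw [h10d_coe_algebraMap]
  exact hv x

variable [IsGalois L K]

/-- If `v` has only one prime above, `Gal(K/L)` acts by isometries for `‖ι ·‖`. -/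
theorem h10d_isometry (ι : K →+* Om q) (v : HeightOneSpectrum (𝓞 L))
    (hv : h10d_Induces (h10d_res L ι) v) (h1 : (v.asIdeal.primesOver (𝓞 K)).ncard = 1)
    (σ : K ≃ₐ[L] K) (x : K) : ‖ι (σ x)‖ = ‖ι x‖ := by
  by_cases hx : x = 0
  · subst hx; simp
  set ι' : K →+* Om q := ι.comp (σ : K →+* K) with hι'
  have hres : h10d_res L ι' = h10d_res L ι := by
    ext y
    simp [h10d_res, hι']
  have hv' : h10d_Induces (h10d_res L ι') v := by rw [hres]; exact hv
  have hm := h10d_place_mem_primesOver ι v hv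
  have hm' := h10d_place_mem_primesOver ι' v hv'
  obtain ⟨a, ha⟩ := Set.ncard_eq_one.1 h1
  rw [ha, Set.mem_singleton_iff] at hm hm'
  have hw : h10d_place ι' = h10d_place ι := HeightOneSpectrum.ext (hm'.trans hm.symm)
  have hI : h10d_Induces ι (h10d_place ι) := h10d_induces_place ι
  have hI' : h10d_Induces ι' (h10d_place ι) := by rw [← hw]; exact h10d_induces_place ι'
  obtain ⟨c, hc0, hc1, hc⟩ := h10d_val_norm hI
  obtain ⟨c', hc0', hc1', hc'⟩ := h10d_val_norm hI'
  -- compare on `q`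
  have hq0 : ((q : ℕ) : K) ≠ 0 := Nat.cast_ne_zero.2 (Fact.out : q.Prime).ne_zero
  obtain ⟨m, hm1, hm2⟩ := hc _ hq0
  obtain ⟨m', hm1', hm2'⟩ := hc' _ hq0
  have hmm : m' = m := by
    rw [hm1] at hm1'
    have := WithZero.exp_injective hm1'
    omega
  have hιq : ι' ((q : ℕ) : K) = ι ((q : ℕ) : K) := by simp [hι']
  rw [hιq, hmm] at hm2'
  have hqlt : ‖ι ((q : ℕ) : K)‖ < 1 := by
    rw [map_natCast]
    exact h10d_norm_natCast_q
  have hmpos : 0 < m := by
    by_contra hcon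
    have hm0 : m ≤ 0 := not_lt.1 hcon
    have : 1 ≤ c ^ m := by
      obtain ⟨k, hk⟩ : ∃ k : ℕ, m = -(k : ℤ) := ⟨m.natAbs, by omega⟩
      rw [hk, zpow_neg, zpow_natCast]
      exact (one_le_inv₀ (pow_pos hc0 k)).2 (pow_le_one₀ hc0.le hc1.le)
    rw [← hm2] at this
    exact absurd hqlt (not_lt.2 this)
  have hcc : c' = c := by
    obtain ⟨k, hk⟩ : ∃ k : ℕ, m = (k : ℤ) := ⟨m.natAbs, by omega⟩
    have hk0 : k ≠ 0 := by
      rintro rfl
      simp at hk
      omega
    rw [hm2, hk, zpow_natCast, zpow_natCast] at hm2'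
    exact (pow_left_inj₀ hc0'.le hc0.le hk0).1 hm2'.symm
  obtain ⟨n, hn1, hn2⟩ := hc x hx
  obtain ⟨n', hn1', hn2'⟩ := hc' x hx
  have hnn : n' = n := by
    rw [hn1] at hn1'
    have := WithZero.exp_injective hn1'
    omega
  have : ι (σ x) = ι' x := rfl
  rw [this, hn2', hn2, hnn, hcc]

/-! ## Lifting automorphisms -/

omit [NumberField L] [NumberField K] in
/-- Automorphisms of `Om q` over `L_v` induce automorphisms of `K / L`. -/
theorem h10d_exists_gal (ι : K →+* Om q) (g : Gq q)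
    (hg : g ∈ GK (h10d_loc (h10d_res L ι))) :
    ∃ σ : K ≃ₐ[L] K, ∀ x, g (ι x) = ι (σ x) := by
  have h := (h10d_mem_GK_loc_iff (h10d_res L ι) g).1 hg
  obtain ⟨σ, hσ⟩ := h10d_exists_aut (L := L) ι g.toRingEquiv (fun x => h x)
  exact ⟨σ, fun x => hσ x⟩

omit [NumberField L] [NumberField K] [IsGalois L K] in
theorem h10d_pow_apply (ι : K →+* Om q) (σ : K ≃ₐ[L] K) (g : Gq q)
    (hgσ : ∀ x, g (ι x) = ι (σ x)) (k : ℕ) (y : K) : (g ^ k) (ι y) = ι ((σ ^ k) y) := by
  induction k generalizing y with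
  | zero => simp
  | succ k ih =>
    rw [pow_succ, pow_succ, AlgEquiv.mul_apply, AlgEquiv.mul_apply, hgσ, ih]

/-- The subgroup of `Gal(K/L)` of automorphisms induced by elements of `GK L_v`. -/
def h10d_liftable (L : Type) {K : Type} [Field L] [Field K] [Algebra L K] (ι : K →+* Om q) :
    Subgroup (K ≃ₐ[L] K) where
  carrier := {σ | ∃ g : Gq q, g ∈ GK (h10d_loc (h10d_res L ι)) ∧ ∀ x, g (ι x) = ι (σ x)}
  one_mem' := ⟨1, one_mem _, fun _ => rfl⟩
  mul_mem' := by
    rintro σ τ ⟨g, hg, hgσ⟩ ⟨h, hh, hhτ⟩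
    refine ⟨g * h, mul_mem hg hh, fun x => ?_⟩
    rw [AlgEquiv.mul_apply, AlgEquiv.mul_apply, hhτ, hgσ]
  inv_mem' := by
    rintro σ ⟨g, hg, hgσ⟩
    refine ⟨g⁻¹, inv_mem hg, fun x => ?_⟩
    have h1 := hgσ (σ⁻¹ x)
    have h2 : σ (σ⁻¹ x) = x := by
      rw [← AlgEquiv.mul_apply, mul_inv_cancel, AlgEquiv.one_apply]
    rw [h2] at h1
    rw [← h1, ← AlgEquiv.mul_apply, inv_mul_cancel, AlgEquiv.one_apply]

/-- If `v` has only one prime above, every element of `Gal(K/L)` is induced by an element of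
`GK L_v`. -/
theorem h10d_exists_lift {p : ℕ} (hp : p.Prime) (hdeg : Module.finrank L K = p)
    (ι : K →+* Om q) (v : HeightOneSpectrum (𝓞 L))
    (hv : h10d_Induces (h10d_res L ι) v) (h1 : (v.asIdeal.primesOver (𝓞 K)).ncard = 1)
    (σ : K ≃ₐ[L] K) :
    ∃ g : Gq q, g ∈ GK (h10d_loc (h10d_res L ι)) ∧ ∀ x, g (ι x) = ι (σ x) := by
  have hcard : Nat.card (K ≃ₐ[L] K) = p := by rw [IsGalois.card_aut_eq_finrank, hdeg]
  haveI : Fact (Nat.card (K ≃ₐ[L] K)).Prime := ⟨by rw [hcard]; exact hp⟩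
  rcases Subgroup.eq_bot_or_eq_top_of_prime_card (h10d_liftable L ι) with hbot | htop
  · exfalso
    have hfix : ∀ g ∈ GK (h10d_loc (h10d_res L ι)), ∀ x, g (ι x) = ι x := by
      intro g hg x
      obtain ⟨τ, hτ⟩ := h10d_exists_gal ι g hg
      have hτmem : τ ∈ h10d_liftable L ι := ⟨g, hg, hτ⟩
      rw [hbot, Subgroup.mem_bot] at hτmem
      rw [hτ x, hτmem, AlgEquiv.one_apply]
    have hmem : ∀ x : K, ι x ∈ h10d_loc (h10d_res L ι) :=
      fun x => h74n_mem_of_fixed _ _ (fun g hg => hfix g hg x)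
    have htriv : ∀ τ : K ≃ₐ[L] K, τ = 1 := by
      intro τ
      ext θ
      rw [AlgEquiv.one_apply]
      have hle : ∀ ε : ℝ, 0 < ε → ‖ι (τ θ - θ)‖ < ε := by
        intro ε hε
        obtain ⟨ℓ, hℓ⟩ := h10d_dense (h10d_res L ι) (hmem θ) hε
        rw [h10d_res_apply] at hℓ
        have hℓ' : ‖ι (θ - algebraMap L K ℓ)‖ < ε := by
          rw [map_sub, ← norm_neg, neg_sub]
          exact hℓ
        have e : τ θ - θ = τ (θ - algebraMap L K ℓ) + -(θ - algebraMap L K ℓ) := by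
          rw [map_sub, AlgEquiv.commutes]
          ring
        rw [e, map_add, map_neg]
        refine lt_of_le_of_lt (IsUltrametricDist.norm_add_le_max _ _) (max_lt ?_ ?_)
        · rw [h10d_isometry ι v hv h1 τ]
          exact hℓ'
        · rw [norm_neg]
          exact hℓ'
      have h0 : ι (τ θ - θ) = 0 := by
        by_contra hne
        have hpos : 0 < ‖ι (τ θ - θ)‖ := norm_pos_iff.2 hne
        exact lt_irrefl _ (hle _ hpos)
      have h00 : τ θ - θ = 0 := (map_eq_zero ι).1 h0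
      exact sub_eq_zero.1 h00
    have hone : Nat.card (K ≃ₐ[L] K) = 1 := by
      haveI : Subsingleton (K ≃ₐ[L] K) := ⟨fun a b => by rw [htriv a, htriv b]⟩
      exact Nat.card_unique
    rw [hcard] at hone
    exact hp.one_lt.ne' hone
  · have hσ : σ ∈ h10d_liftable L ι := by rw [htop]; trivial
    exact hσ

/-- **The local extension at a nonsplit place is cyclic of degree `p`**, generated by any lift
of a generator of `Gal(K/L)`. -/
theorem h10d_isCyc {p : ℕ} (hp : p.Prime) (hdeg : Module.finrank L K = p) (ι : K →+* Om q)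
    (σ : K ≃ₐ[L] K) (hσ : σ ≠ 1) (g : Gq q) (hg : g ∈ GK (h10d_loc (h10d_res L ι)))
    (hgσ : ∀ x, g (ι x) = ι (σ x)) :
    IsCyc (h10d_loc (h10d_res L ι)) (h10d_loc ι) p g where
  le := h10d_loc_res_le ι
  fin := inferInstance
  mem := hg
  normal := by
    intro a ha s hs
    rw [h10d_mem_GK_loc_iff]
    intro x
    obtain ⟨τ, hτ⟩ := h10d_exists_gal ι a⁻¹ (inv_mem ha)
    have h1 : a⁻¹ (ι x) = ι (τ x) := hτ x
    have h2 : s (ι (τ x)) = ι (τ x) := (h10d_mem_GK_loc_iff ι s).1 hs (τ x)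
    rw [AlgEquiv.mul_apply, AlgEquiv.mul_apply, h1, h2, ← h1, ← AlgEquiv.mul_apply,
      mul_inv_cancel, AlgEquiv.one_apply]
  gen := by
    intro a ha
    obtain ⟨τ, hτ⟩ := h10d_exists_gal ι a ha
    obtain ⟨i, hi, rfl⟩ := h10d_exists_pow_eq hp hdeg σ hσ τ
    refine ⟨i, hi, ?_⟩
    rw [h10d_mem_GK_loc_iff]
    intro x
    rw [AlgEquiv.mul_apply, hτ x, ← h10d_pow_apply ι σ g hgσ i x, ← AlgEquiv.mul_apply,
      inv_mul_cancel, AlgEquiv.one_apply]
  ord := by
    intro i hi0 hip hmem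
    rw [h10d_mem_GK_loc_iff] at hmem
    have h1 : σ ^ i = 1 := by
      ext x
      apply ι.injective
      rw [← h10d_pow_apply ι σ g hgσ i x, hmem x, AlgEquiv.one_apply]
    have hord := h10d_orderOf_eq hp hdeg σ hσ
    have hdvd := orderOf_dvd_of_pow_eq_one h1
    rw [hord] at hdvd
    exact absurd (Nat.le_of_dvd hi0 hdvd) (not_le.2 hip)
  pos := hp.pos

/-- The local norm of `ι y` is `ι` of the global norm. -/
theorem h10d_normAlong_eq {p : ℕ} (hp : p.Prime) (hdeg : Module.finrank L K = p)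
    (ι : K →+* Om q) (σ : K ≃ₐ[L] K) (hσ : σ ≠ 1) (g : Gq q)
    (hgσ : ∀ x, g (ι x) = ι (σ x)) (y : K) :
    normAlong g p (ι y) = ι (algebraMap L K (Algebra.norm L y)) := by
  rw [h10d_norm_eq_prod_pow hp hdeg σ hσ y, map_prod]
  unfold normAlong
  exact Finset.prod_congr rfl (fun i _ => h10d_pow_apply ι σ g hgσ i y)

/-- Packaged form: at a place with only one prime above there is a local generator. -/
theorem h10d_exists_isCyc {p : ℕ} (hp : p.Prime) (hdeg : Module.finrank L K = p)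
    (ι : K →+* Om q) (v : HeightOneSpectrum (𝓞 L))
    (hv : h10d_Induces (h10d_res L ι) v) (h1 : (v.asIdeal.primesOver (𝓞 K)).ncard = 1) :
    ∃ (σ : K ≃ₐ[L] K) (g : Gq q), σ ≠ 1 ∧ (∀ x, g (ι x) = ι (σ x)) ∧
      IsCyc (h10d_loc (h10d_res L ι)) (h10d_loc ι) p g := by
  have hcard : Nat.card (K ≃ₐ[L] K) = p := by rw [IsGalois.card_aut_eq_finrank, hdeg]
  have hnt : ∃ σ : K ≃ₐ[L] K, σ ≠ 1 := by
    by_contra hcon
    rw [not_exists] at hcon
    have htriv : ∀ τ : K ≃ₐ[L] K, τ = 1 := fun τ => not_not.1 (hcon τ)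
    have hone : Nat.card (K ≃ₐ[L] K) = 1 := by
      haveI : Subsingleton (K ≃ₐ[L] K) := ⟨fun a b => by rw [htriv a, htriv b]⟩
      exact Nat.card_unique
    rw [hcard] at hone
    exact hp.one_lt.ne' hone
  obtain ⟨σ, hσ⟩ := hnt
  obtain ⟨g, hg, hgσ⟩ := h10d_exists_lift hp hdeg ι v hv h1 σ
  exact ⟨σ, g, hσ, hgσ, h10d_isCyc hp hdeg ι σ hσ g hg hgσ⟩

end

end Fermat.Agent.PT.Glob
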