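import Mathlib
import Fermat.Agent.PT.Glob.GBasic
import Fermat.Agent.PT.Glob.Dict.H10Cyc

/-!
# W3-PT / PT-GLOB / GLOB-HNREL (helper10), part 2: embeddings of `K ⊆ ℚ̄` into `Om q` are places

Every ring homomorphism `ι : ↥K →+* Om q` (`K ⊆ ℚ̄`) is of the form `x ↦ ι_q (g x)` for some
`g ∈ G_ℚ`; the local fields of `GBasic.lean` are then the local fields of the dictionary.
-/

set_option autoImplicit false
set_option linter.style.haveILetI false
set_option linter.unusedSectionVars false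

open Fermat.Agent.Bridge

noncomputable section

namespace Fermat.Agent.PT.Glob

open Fermat.Agent.PT.Loc

variable {q : ℕ} [Fact q.Prime]

/-- Every embedding of a subfield of `ℚ̄` into `Om q` is induced by an element of `G_ℚ`. -/
theorem h10g_exists_gq (K : NFd) (ι : ↥K →+* Om q) :
    ∃ g : GQ, ∀ x : ↥K, padicEmbedding q (g (x : Qb)) = ι x := by
  haveI : Algebra.IsAlgebraic ℚ Qb := AlgebraicClosure.isAlgebraic ℚ
  letI : Algebra ↥K (Om q) := ι.toAlgebra
  haveI : Algebra.IsAlgebraic ↥K Qb := Algebra.IsAlgebraic.tower_top (K := ℚ) ↥K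
  let ι₁ : Qb →ₐ[↥K] Om q := IsAlgClosed.lift
  let ι₂ : Qb →ₐ[ℚ] Om q := ι₁.toRingHom.toRatAlgHom
  have hι₂ : ∀ x : ↥K, ι₂ (x : Qb) = ι x := fun x => ι₁.commutes x
  have hrange : ∀ y : Qb, ι₂ y ∈ (padicEmbedding q).range := by
    intro y
    have halg : IsAlgebraic ℚ (ι₂ y) :=
      IsAlgebraic.algHom ι₂ (Algebra.IsAlgebraic.isAlgebraic y)
    obtain ⟨y', hy'⟩ := Fermat.Agent.PT.Bridge.h23b_exists_padicEmbedding_eq_of_isAlgebraic q halg
    exact ⟨y', hy'⟩
  let e : Qb ≃ₐ[ℚ] (padicEmbedding q).range :=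
    AlgEquiv.ofInjective (padicEmbedding q) (padicEmbedding q).toRingHom.injective
  let f : Qb →ₐ[ℚ] (padicEmbedding q).range := ι₂.codRestrict _ hrange
  let g₁ : Qb →ₐ[ℚ] Qb := (e.symm : (padicEmbedding q).range →ₐ[ℚ] Qb).comp f
  have hg₁ : ∀ y : Qb, padicEmbedding q (g₁ y) = ι₂ y := by
    intro y
    have h1 : e (g₁ y) = f y := e.apply_symm_apply (f y)
    have h2 : ((e (g₁ y) : (padicEmbedding q).range) : Om q) = padicEmbedding q (g₁ y) := rfl
    rw [← h2, h1]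
    rfl
  let g : GQ := AlgEquiv.ofBijective g₁ (Algebra.IsAlgebraic.algHom_bijective g₁)
  refine ⟨g, fun x => ?_⟩
  have : g (x : Qb) = g₁ (x : Qb) := rfl
  rw [this, hg₁, hι₂]

variable {L K : NFd}

theorem h10g_locField_eq (g : GQ) (ι : ↥K →+* Om q)
    (hg : ∀ x : ↥K, padicEmbedding q (g (x : Qb)) = ι x) :
    gLocField q g K = h10d_loc ι := by
  unfold gLocField Fermat.Agent.PT.Bridge.h23b_localField h10d_loc
  congr 1
  ext z
  constructor
  · rintro ⟨y, hy, rfl⟩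
    rw [IntermediateField.coe_map] at hy
    obtain ⟨x, hx, rfl⟩ := hy
    exact ⟨⟨x, hx⟩, (hg ⟨x, hx⟩).symm⟩
  · rintro ⟨x, rfl⟩
    refine ⟨g (x : Qb), ?_, hg x⟩
    rw [IntermediateField.coe_map]
    exact ⟨x, x.2, rfl⟩


end Fermat.Agent.PT.Glob
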