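import Mathlib
import Fermat.Agent.PT.Glob.Core
import Fermat.Agent.PT.Glob.Dict.H10Cyc

/-!
# W3-PT / PT-GLOB / GLOB-DICT (helper10), part 5: local norms in `Core` language versus `Loc.IsNorm`

`K / L` Galois of prime degree `p`, `ι : K →+* Om q` inducing `v` on `L`, `v` with only one prime
above, `g ∈ GK L_v` a lift of a generator `σ` of `Gal(K/L)`:

* `h10d_isLocalNormAt_iff` : `IsLocalNormAt L K v b ↔ IsNorm K_w g p (ι b)` (uses `LFPow`);
* `h10d_fiLocalIndex` : `NIMain → LFPow → FILocalIndex` (`FI/Iface.lean`).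
-/

set_option autoImplicit false
set_option linter.style.haveILetI false
set_option linter.unusedSectionVars false

open NumberField IsDedekindDomain

namespace Fermat.Agent.PT.Glob

open Fermat.Agent.PT.Loc

noncomputable section

variable {q : ℕ} [Fact q.Prime]

/-! ## `normAlong` calculus -/

theorem h10d_normAlong_mul (g : Gq q) (n : ℕ) (a b : Om q) :
    normAlong g n (a * b) = normAlong g n a * normAlong g n b := by
  unfold normAlong
  simp only [map_mul]
  exact Finset.prod_mul_distrib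

theorem h10d_normAlong_inv (g : Gq q) (n : ℕ) (a : Om q) :
    normAlong g n a⁻¹ = (normAlong g n a)⁻¹ := by
  unfold normAlong
  simp only [map_inv₀]
  exact Finset.prod_inv_distrib (f := fun i => (g ^ i) a)

theorem h10d_normAlong_div (g : Gq q) (n : ℕ) (a b : Om q) :
    normAlong g n (a / b) = normAlong g n a / normAlong g n b := by
  rw [div_eq_mul_inv, h10d_normAlong_mul, h10d_normAlong_inv, div_eq_mul_inv]

theorem h10d_normAlong_of_mem {K₀ : LF q} {g : Gq q} (hg : g ∈ GK K₀) (n : ℕ) {z : Om q}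
    (hz : z ∈ K₀) : normAlong g n z = z ^ n := by
  unfold normAlong
  have h : ∀ i ∈ Finset.range n, (g ^ i) z = z := fun i _ =>
    (IntermediateField.mem_fixingSubgroup_iff K₀ (g ^ i)).1 (pow_mem hg i) z hz
  rw [Finset.prod_congr rfl h, Finset.prod_const, Finset.card_range]

theorem h10d_prod_sub_one_lt {ι : Type*} (s : Finset ι) (u : ι → Om q) {δ : ℝ} (hδ0 : 0 < δ)
    (hδ1 : δ ≤ 1) (h : ∀ i ∈ s, ‖u i - 1‖ < δ) : ‖∏ i ∈ s, u i - 1‖ < δ := by
  classical
  induction s using Finset.induction_on with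
  | empty => simpa using hδ0
  | insert a s ha ih =>
    rw [Finset.prod_insert ha]
    have h1 := h a (Finset.mem_insert_self a s)
    have h2 := ih (fun i hi => h i (Finset.mem_insert_of_mem hi))
    have e : u a * ∏ i ∈ s, u i - 1
        = (u a - 1) * (∏ i ∈ s, u i - 1) + ((u a - 1) + (∏ i ∈ s, u i - 1)) := by ring
    rw [e]
    refine lt_of_le_of_lt (IsUltrametricDist.norm_add_le_max _ _) (max_lt ?_ ?_)
    · rw [norm_mul]
      calc ‖u a - 1‖ * ‖∏ i ∈ s, u i - 1‖ ≤ ‖u a - 1‖ * 1 :=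
            mul_le_mul_of_nonneg_left (h2.le.trans hδ1) (norm_nonneg _)
        _ < δ := by rwa [mul_one]
    · exact lt_of_le_of_lt (IsUltrametricDist.norm_add_le_max _ _) (max_lt h1 h2)

theorem h10d_normAlong_sub_one_lt (g : Gq q) (n : ℕ) {u : Om q} {δ : ℝ} (hδ0 : 0 < δ)
    (hδ1 : δ ≤ 1) (h : ‖u - 1‖ < δ) : ‖normAlong g n u - 1‖ < δ := by
  unfold normAlong
  apply h10d_prod_sub_one_lt _ _ hδ0 hδ1
  intro i _
  have e : (g ^ i) u - 1 = (g ^ i) (u - 1) := by simp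
  rw [e, h74n_norm_map]
  exact h

/-- `‖t - 1‖ < δ ≤ 1` implies `‖t⁻¹ - 1‖ < δ`. -/
theorem h10d_inv_sub_one_lt {t : Om q} {δ : ℝ} (hδ1 : δ ≤ 1) (h : ‖t - 1‖ < δ) :
    ‖t⁻¹ - 1‖ < δ := by
  have hlt : ‖t - 1‖ < 1 := lt_of_lt_of_le h hδ1
  have ht1 : ‖t‖ = 1 := by
    have h1 : ‖(1 : Om q)‖ = 1 := norm_one
    have e : t = (t - 1) + 1 := by ring
    have := IsUltrametricDist.norm_add_eq_max_of_norm_ne_norm
      (x := t - 1) (y := (1 : Om q)) (by rw [h1]; exact hlt.ne)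
    rw [← e, h1, max_eq_right hlt.le] at this
    exact this
  have ht0 : t ≠ 0 := by
    intro h0
    rw [h0, norm_zero] at ht1
    exact zero_ne_one ht1
  have e : t⁻¹ - 1 = -(t - 1) / t := by
    field_simp
    ring
  rw [e, norm_div, norm_neg, ht1, div_one]
  exact h

/-! ## Closure properties of `IsNorm` -/

theorem h10d_isNorm_mul {K₁ : LF q} {g : Gq q} {n : ℕ} {a b : Om q}
    (ha : IsNorm K₁ g n a) (hb : IsNorm K₁ g n b) : IsNorm K₁ g n (a * b) := by
  obtain ⟨α, hα, hα0, rfl⟩ := ha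
  obtain ⟨β, hβ, hβ0, rfl⟩ := hb
  exact ⟨α * β, mul_mem hα hβ, mul_ne_zero hα0 hβ0, h10d_normAlong_mul g n α β⟩

theorem h10d_isNorm_inv {K₁ : LF q} {g : Gq q} {n : ℕ} {a : Om q}
    (ha : IsNorm K₁ g n a) : IsNorm K₁ g n a⁻¹ := by
  obtain ⟨α, hα, hα0, rfl⟩ := ha
  exact ⟨α⁻¹, inv_mem hα, inv_ne_zero hα0, h10d_normAlong_inv g n α⟩

theorem h10d_isNorm_pow_of_mem {K₀ K₁ : LF q} (hle : K₀ ≤ K₁) {g : Gq q} (hg : g ∈ GK K₀)
    (n : ℕ) {z : Om q} (hz : z ∈ K₀) (hz0 : z ≠ 0) : IsNorm K₁ g n (z ^ n) :=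
  ⟨z, hle hz, hz0, h10d_normAlong_of_mem hg n hz⟩

/-! ## Valuation versus norm -/

theorem h10d_approx_iff {F : Type} [Field F] [NumberField F] {ι : F →+* Om q}
    {v : HeightOneSpectrum (𝓞 F)} {c : ℝ} (hc0 : 0 < c) (hc1 : c < 1)
    (hc : ∀ x : F, x ≠ 0 → ∃ n : ℤ, v.valuation F x = WithZero.exp (-n) ∧ ‖ι x‖ = c ^ n)
    (x : F) (n : ℕ) :
    v.valuation F x ≤ WithZero.exp (-((n : ℤ) + 1)) ↔ ‖ι x‖ ≤ c ^ (n + 1) := by
  by_cases hx : x = 0
  · subst hx
    simp only [map_zero, norm_zero]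
    exact ⟨fun _ => (pow_pos hc0 _).le, fun _ => zero_le⟩
  · obtain ⟨m, hm1, hm2⟩ := hc x hx
    rw [hm1, hm2, WithZero.exp_le_exp]
    have e : c ^ (n + 1) = c ^ (((n : ℤ) + 1)) := by
      rw [← zpow_natCast]
      push_cast
      rfl
    rw [e, zpow_le_zpow_iff_right_of_lt_one₀ hc0 hc1]
    constructor <;> intro h <;> omega

/-! ## The main equivalence -/

section main

variable {L K : Type} [Field L] [NumberField L] [Field K] [NumberField K] [Algebra L K]
  [IsGalois L K]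

/-- **DICT, main equivalence.** At a place where the local extension is cyclic of degree `p`
generated by a lift `g` of `σ`, the local norms in the sense of `Core.lean` are the elements
whose image is a norm from `K_w`. -/
theorem h10d_isLocalNormAt_iff (hPow : LFPow) {p : ℕ} (hp : p.Prime)
    (hdeg : Module.finrank L K = p) (ι : K →+* Om q) (v : HeightOneSpectrum (𝓞 L))
    (hv : h10d_Induces (h10d_res L ι) v) (σ : K ≃ₐ[L] K) (hσ : σ ≠ 1) (g : Gq q)
    (hg : g ∈ GK (h10d_loc (h10d_res L ι))) (hgσ : ∀ x, g (ι x) = ι (σ x)) (b : Lˣ) :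
    IsLocalNormAt L K v b ↔ IsNorm (h10d_loc ι) g p (h10d_res L ι (b : L)) := by
  haveI : Fact p.Prime := ⟨hp⟩
  obtain ⟨c, hc0, hc1, hc⟩ := h10d_val_norm hv
  have hb0 : h10d_res L ι (b : L) ≠ 0 := (map_ne_zero _).2 b.ne_zero
  have hnorm : ∀ y : K, normAlong g p (ι y) = h10d_res L ι (Algebra.norm L y) :=
    fun y => h10d_normAlong_eq hp hdeg ι σ hσ g hgσ y
  constructor
  · intro h
    obtain ⟨ε, hε, hpow⟩ := hPow q p (h10d_loc (h10d_res L ι))
    obtain ⟨n, hn⟩ := exists_pow_lt_of_lt_one hε hc1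
    obtain ⟨y, hy⟩ := h n
    have hNy0 : Algebra.norm L (y : K) ≠ 0 := by
      rw [Ne, Algebra.norm_eq_zero_iff]
      exact y.ne_zero
    have h1 : ‖h10d_res L ι ((b : L) / Algebra.norm L (y : K) - 1)‖ ≤ c ^ (n + 1) :=
      (h10d_approx_iff hc0 hc1 hc _ n).1 hy
    have h2 : ‖h10d_res L ι ((b : L) / Algebra.norm L (y : K)) - 1‖ < ε := by
      have e : h10d_res L ι ((b : L) / Algebra.norm L (y : K)) - 1
          = h10d_res L ι ((b : L) / Algebra.norm L (y : K) - 1) := by simp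
      rw [e]
      refine lt_of_le_of_lt h1 (lt_of_le_of_lt ?_ hn)
      rw [pow_succ]
      calc c ^ n * c ≤ c ^ n * 1 := mul_le_mul_of_nonneg_left hc1.le (pow_pos hc0 n).le
        _ = c ^ n := mul_one _
    obtain ⟨z, hz, hzp⟩ := hpow _ (h10d_mem_loc _ _) h2
    have hz0 : z ≠ 0 := by
      intro hz0
      rw [hz0, zero_pow hp.ne_zero] at hzp
      have : (b : L) / Algebra.norm L (y : K) ≠ 0 := div_ne_zero b.ne_zero hNy0
      exact (map_ne_zero (h10d_res L ι)).2 this hzp.symm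
    have hA : IsNorm (h10d_loc ι) g p (h10d_res L ι (Algebra.norm L (y : K))) :=
      ⟨ι (y : K), h10d_mem_loc ι _, (map_ne_zero ι).2 y.ne_zero, hnorm y⟩
    have hB : IsNorm (h10d_loc ι) g p (z ^ p) :=
      h10d_isNorm_pow_of_mem (h10d_loc_res_le ι) hg p hz hz0
    have hmul := h10d_isNorm_mul hA hB
    have e : h10d_res L ι (Algebra.norm L (y : K)) * z ^ p = h10d_res L ι (b : L) := by
      rw [hzp, ← map_mul]
      congr 1
      field_simp
    rw [e] at hmul
    exact hmul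
  · rintro ⟨β, hβ, hβ0, hβN⟩ n
    have hδ0 : 0 < c ^ (n + 1) := pow_pos hc0 _
    have hδ1 : c ^ (n + 1) ≤ 1 := pow_le_one₀ hc0.le hc1.le
    obtain ⟨y, hy0, hy⟩ := h10d_dense_div ι hβ hβ0 hδ0 hδ1
    refine ⟨Units.mk0 y hy0, ?_⟩
    unfold NormApprox
    rw [h10d_approx_iff hc0 hc1 hc]
    have hNy0 : Algebra.norm L y ≠ 0 := by
      rw [Ne, Algebra.norm_eq_zero_iff]
      exact hy0
    -- t = ι (N y) / ι b
    have ht : ‖h10d_res L ι (Algebra.norm L y) / h10d_res L ι (b : L) - 1‖ < c ^ (n + 1) := by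
      rw [← hnorm y, ← hβN, ← h10d_normAlong_div]
      exact h10d_normAlong_sub_one_lt g p hδ0 hδ1 hy
    have ht' := h10d_inv_sub_one_lt hδ1 ht
    have e : h10d_res L ι ((b : L) / Algebra.norm L ((Units.mk0 y hy0 : Kˣ) : K) - 1)
        = (h10d_res L ι (Algebra.norm L y) / h10d_res L ι (b : L))⁻¹ - 1 := by
      rw [Units.val_mk0, map_sub, map_div₀, map_one, inv_div]
    rw [e]
    exact ht'.le

end main

end

end Fermat.Agent.PT.Glob
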