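import Mathlib
import Fermat.Agent.PT.Glob.FI.Iface
import Fermat.Agent.PT.Glob.Dict.H10Main

/-!
# W3-PT / PT-GLOB / GLOB-DICT (helper10), part 6: the local norm index in `Core` language

* `h10d_exists_prime_mem` : every prime of `𝓞 L` contains a prime number;
* `h10d_exists_embedding` : every place `v` of `L` is induced by the restriction of some
  `ι : K →+* Om q`;
* `h10d_fiLocalIndex` : `NIMain → LFPow → FILocalIndex` (row FI-L1).
-/

set_option autoImplicit false
set_option linter.style.haveILetI false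
set_option linter.unusedSectionVars false

open NumberField IsDedekindDomain

namespace Fermat.Agent.PT.Glob

open Fermat.Agent.PT.Loc

noncomputable section

section

variable {L : Type} [Field L] [NumberField L]

theorem h10d_exists_prime_of_natCast_mem (v : HeightOneSpectrum (𝓞 L)) :
    ∀ n : ℕ, n ≠ 0 → ((n : ℕ) : 𝓞 L) ∈ v.asIdeal → ∃ q : ℕ, q.Prime ∧ ((q : ℕ) : 𝓞 L) ∈ v.asIdeal := by
  intro n
  induction n using Nat.strong_induction_on with
  | _ n ih =>
    intro hn0 hn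
    by_cases h1 : n = 1
    · subst h1
      exfalso
      rw [Nat.cast_one] at hn
      exact v.isPrime.ne_top ((Ideal.eq_top_iff_one _).2 hn)
    · have hq : (n.minFac).Prime := Nat.minFac_prime h1
      obtain ⟨m, hm⟩ := Nat.minFac_dvd n
      have hmem : ((n.minFac : ℕ) : 𝓞 L) * ((m : ℕ) : 𝓞 L) ∈ v.asIdeal := by
        rw [← Nat.cast_mul, ← hm]
        exact hn
      rcases v.isPrime.mem_or_mem hmem with h | h
      · exact ⟨n.minFac, hq, h⟩
      · have hm0 : m ≠ 0 := by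
          rintro rfl
          rw [mul_zero] at hm
          exact hn0 hm
        have hlt : m < n := by
          have h2 : 2 ≤ n.minFac := hq.two_le
          have hmpos : 0 < m := Nat.pos_of_ne_zero hm0
          calc m < n.minFac * m := by nlinarith
            _ = n := hm.symm
        exact ih m hlt hm0 h

/-- Every prime of `𝓞 L` contains a prime number. -/
theorem h10d_exists_prime_mem (v : HeightOneSpectrum (𝓞 L)) :
    ∃ q : ℕ, q.Prime ∧ ((q : ℕ) : 𝓞 L) ∈ v.asIdeal := by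
  have h0 : Ideal.absNorm v.asIdeal ≠ 0 := by
    rw [Ne, Ideal.absNorm_eq_zero_iff]
    exact v.ne_bot
  have hmem := Ideal.absNorm_mem v.asIdeal
  exact h10d_exists_prime_of_natCast_mem v _ h0 (by exact_mod_cast hmem)

end

variable {L K : Type} [Field L] [NumberField L] [Field K] [NumberField K] [Algebra L K]

/-- Every place `v` of `L` containing `q` is induced by the restriction to `L` of an embedding
`K →+* Om q`. -/
theorem h10d_exists_embedding {q : ℕ} [Fact q.Prime] (v : HeightOneSpectrum (𝓞 L))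
    (hq : ((q : ℕ) : 𝓞 L) ∈ v.asIdeal) :
    ∃ ι : K →+* Om q, h10d_Induces (h10d_res L ι) v := by
  obtain ⟨ιL, hιL⟩ := h10d_exists_induces v hq
  letI : Algebra L (Om q) := ιL.toAlgebra
  let ιK : K →ₐ[L] Om q := IsAlgClosed.lift
  refine ⟨ιK.toRingHom, ?_⟩
  have hres : h10d_res L ιK.toRingHom = ιL := by
    ext x
    exact ιK.commutes x
  rw [hres]
  exact hιL

variable [IsGalois L K]

/-- **FI-L1**: the local norm index at a place with only one prime above is `p`. -/
theorem h10d_fiLocalIndex (hNI : NIMain) (hPow : LFPow) : FILocalIndex := by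
  intro p hp _ L K _ _ _ _ _ _ hdeg v h1
  obtain ⟨q, hqp, hq⟩ := h10d_exists_prime_mem v
  haveI : Fact q.Prime := ⟨hqp⟩
  haveI : Fact p.Prime := ⟨hp⟩
  obtain ⟨ι, hv⟩ := h10d_exists_embedding (K := K) v hq
  obtain ⟨σ, g, hσ, hgσ, hcyc⟩ := h10d_exists_isCyc hp hdeg ι v hv h1
  have hg : g ∈ GK (h10d_loc (h10d_res L ι)) := hcyc.mem
  have hiff := fun b : Lˣ => h10d_isLocalNormAt_iff hPow hp hdeg ι v hv σ hσ g hg hgσ b
  obtain ⟨⟨b₀, hb₀, hb₀0, hb₀N⟩, hgen⟩ := hNI q p (h10d_loc (h10d_res L ι)) (h10d_loc ι) g hcyc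
  -- pull back the non-norm `b₀` to `L`
  obtain ⟨ε, hε, hpow⟩ := hPow q p (h10d_loc (h10d_res L ι))
  have hε' : 0 < min ε 1 := lt_min hε one_pos
  obtain ⟨ℓ₀, hℓ₀0, hℓ₀⟩ := h10d_dense_div (h10d_res L ι) hb₀ hb₀0 hε' (min_le_right _ _)
  obtain ⟨z, hz, hzp⟩ := hpow (h10d_res L ι ℓ₀ / b₀)
    (div_mem (h10d_mem_loc _ _) hb₀) (lt_of_lt_of_le hℓ₀ (min_le_left _ _))
  have hιℓ₀ : h10d_res L ι ℓ₀ ≠ 0 := (map_ne_zero _).2 hℓ₀0
  have hz0 : z ≠ 0 := by
    intro hz0
    rw [hz0, zero_pow hp.ne_zero] at hzp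
    exact div_ne_zero hιℓ₀ hb₀0 hzp.symm
  have hzN : IsNorm (h10d_loc ι) g p (z ^ p) :=
    h10d_isNorm_pow_of_mem (h10d_loc_res_le ι) hg p hz hz0
  have hℓ₀N : ¬ IsNorm (h10d_loc ι) g p (h10d_res L ι ℓ₀) := by
    intro hN
    apply hb₀N
    have := h10d_isNorm_mul hN (h10d_isNorm_inv hzN)
    have e : h10d_res L ι ℓ₀ * (z ^ p)⁻¹ = b₀ := by
      rw [hzp]
      field_simp
    rw [e] at this
    exact this
  set a : Lˣ := Units.mk0 ℓ₀ hℓ₀0 with ha
  have haN : a ∉ localNormSubgroup L K v := by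
    intro hmem
    exact hℓ₀N ((hiff a).1 hmem)
  have hap : a ^ p ∈ localNormSubgroup L K v := by
    apply globalNorms_le_localNormSubgroup L K v
    rw [mem_globalNorms]
    refine ⟨Units.map (algebraMap L K : L →* K) a, ?_⟩
    rw [Units.coe_map, MonoidHom.coe_coe, Algebra.norm_algebraMap, hdeg, Units.val_pow_eq_pow_val]
  have hgen' : ∀ x : Lˣ, ∃ k, k < p ∧ x * a ^ k ∈ localNormSubgroup L K v := by
    intro x
    obtain ⟨k, hk, hkN⟩ := hgen (h10d_res L ι ℓ₀) (h10d_mem_loc _ _) hιℓ₀ hℓ₀N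
      (h10d_res L ι (x : L)) (h10d_mem_loc _ _) ((map_ne_zero _).2 x.ne_zero)
    refine ⟨k, hk, ?_⟩
    rw [mem_localNormSubgroup, hiff]
    have e : h10d_res L ι (((x * a ^ k : Lˣ)) : L)
        = h10d_res L ι (x : L) * h10d_res L ι ℓ₀ ^ k := by
      rw [Units.val_mul, Units.val_pow_eq_pow_val, map_mul, map_pow, ha, Units.val_mk0]
    rw [e]
    exact hkN
  exact h10d_index_eq_prime (localNormSubgroup L K v) hp a haN hap hgen'

end

end Fermat.Agent.PT.Glob
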