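import Mathlib
import Fermat.Agent.PT.Glob.GIface
import Fermat.Agent.PT.Glob.FI.Iface
import Fermat.Agent.PT.Glob.Dict.H10GCyc
import Fermat.Agent.PT.Glob.Dict.H10GEmb
import Fermat.Agent.PT.Glob.Dict.H10Index

/-!
# W3-PT / PT-GLOB / GLOB-HNREL (helper10): the Hasse norm theorem in relative form

`h10g_gHasseNorm_of : IfaceHN → FISplit → LFPow → GHasseNorm`.

For `K / L` cyclic of odd prime degree `p` inside `ℚ̄` (`GIsCyc L K p σ`), the abstract extension
`↥K / ↥L` is Galois of degree `p` (`H10GCyc.lean`); at a place `v` of `↥L` with `p` primes above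
every element is a local norm (`FISplit`); at a place with one prime above, `v` is induced by an
embedding `ι = ι_q ∘ g` and `IsLocalNormAt ↔ Loc.IsNorm` (`H10Main.lean`), which is the
hypothesis. `IfaceHN` then gives a global norm.
-/

set_option autoImplicit false
set_option linter.style.haveILetI false
set_option linter.unusedSectionVars false

open NumberField IsDedekindDomain
open Fermat.Agent.Bridge

noncomputable section

namespace Fermat.Agent.PT.Glob

open Fermat.Agent.PT.Loc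

theorem h10g_ncard_primesOver {L K : Type} [Field L] [NumberField L] [Field K] [NumberField K]
    [Algebra L K] [IsGalois L K] {p : ℕ} (hp : p.Prime) (hdeg : Module.finrank L K = p)
    (v : HeightOneSpectrum (𝓞 L)) :
    (v.asIdeal.primesOver (𝓞 K)).ncard = 1 ∨ (v.asIdeal.primesOver (𝓞 K)).ncard = p := by
  have := v.isMaximal
  have h := Ideal.ncard_primesOver_mul_ramificationIdxIn_mul_inertiaDegIn v.asIdeal (𝓞 K)
    Gal(K/L)
  rw [IsGalois.card_aut_eq_finrank, hdeg] at h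
  have hdvd : (v.asIdeal.primesOver (𝓞 K)).ncard ∣ p := ⟨_, h.symm⟩
  exact (Nat.dvd_prime hp).1 hdvd

/-- **GLOB-HNREL**: the Hasse norm theorem in relative form. -/
theorem h10g_gHasseNorm_of (hHN : IfaceHN) (hSplit : FISplit) (hPow : LFPow) : GHasseNorm := by
  intro p _ hp2 L K _ σ ζ b hζL hζ hcyc hbL hb0 hloc
  have hp : p.Prime := Fact.out
  have hp3 : 3 ≤ p := by
    have h2 := hp.two_le
    omega
  letI := h10g_algebra hcyc.le
  haveI : FiniteDimensional ℚ ↥K := hcyc.fin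
  haveI : NumberField ↥L := ⟨⟩
  haveI : NumberField ↥K := ⟨⟩
  haveI := h10g_isGalois hcyc
  have hdeg : Module.finrank ↥L ↥K = p := h10g_finrank hp hcyc
  have hbL0 : (⟨b, hbL⟩ : ↥L) ≠ 0 := fun h => hb0 (congrArg Subtype.val h)
  set bL : (↥L)ˣ := Units.mk0 ⟨b, hbL⟩ hbL0 with hbLdef
  have hall : ∀ v : HeightOneSpectrum (𝓞 ↥L), IsLocalNormAt ↥L ↥K v bL := by
    intro v
    rcases h10g_ncard_primesOver hp hdeg v with h1 | hpp
    · obtain ⟨q, hqp, hq⟩ := h10d_exists_prime_mem v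
      haveI : Fact q.Prime := ⟨hqp⟩
      obtain ⟨ι, hv⟩ := h10d_exists_embedding (K := ↥K) v hq
      obtain ⟨σ', g', hσ', hgσ', hcyc'⟩ := h10d_exists_isCyc hp hdeg ι v hv h1
      obtain ⟨g, hg⟩ := h10g_exists_gq K ι
      have hKw : gLocField q g K = h10d_loc ι := h10g_locField_eq g ι hg
      have hLv : gLocField q g L = h10d_loc (h10d_res ↥L ι) :=
        h10g_locField_eq g (h10d_res ↥L ι) (fun x => hg (algebraMap ↥L ↥K x))
      have hN := hloc q g g' (by rw [hLv, hKw]; exact hcyc')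
      rw [hKw] at hN
      rw [h10d_isLocalNormAt_iff hPow hp hdeg ι v hv σ' hσ' g' hcyc'.mem hgσ' bL]
      have e : h10d_res ↥L ι ((bL : (↥L)ˣ) : ↥L) = gLocEl q g b := by
        rw [hbLdef, Units.val_mk0]
        exact (hg (algebraMap ↥L ↥K ⟨b, hbL⟩)).symm
      rw [e]
      exact hN
    · exact hSplit p hp ↥L ↥K hdeg v hpp bL
  have hζ' : IsPrimitiveRoot (⟨ζ, hζL⟩ : ↥L) p :=
    IsPrimitiveRoot.of_map_of_injective (f := L.val) (by exact hζ) L.val.injective
  obtain ⟨y, hy⟩ := hHN p hp hp3 ↥L ↥K hdeg ⟨⟨ζ, hζL⟩, hζ'⟩ bL hall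
  refine ⟨((y : ↥K) : Qb), (y : ↥K).2, fun h => y.ne_zero (Subtype.ext h), ?_⟩
  have hprod := h10d_norm_eq_prod_pow hp hdeg (h10g_restr hcyc σ hcyc.mem)
    (h10g_restr_sigma_ne_one hp hcyc) (y : ↥K)
  rw [hy] at hprod
  have h2 : ((algebraMap ↥L ↥K ((bL : (↥L)ˣ) : ↥L) : ↥K) : Qb)
      = ((∏ i ∈ Finset.range p, ((h10g_restr hcyc σ hcyc.mem) ^ i) (y : ↥K) : ↥K) : Qb) :=
    congrArg Subtype.val hprod
  have h3 : ((algebraMap ↥L ↥K ((bL : (↥L)ˣ) : ↥L) : ↥K) : Qb) = b := by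
    rw [hbLdef, Units.val_mk0]
    rfl
  rw [h3] at h2
  unfold gnormAlong
  rw [h2]
  have h4 : ((∏ i ∈ Finset.range p, ((h10g_restr hcyc σ hcyc.mem) ^ i) (y : ↥K) : ↥K) : Qb)
      = ∏ i ∈ Finset.range p, ((((h10g_restr hcyc σ hcyc.mem) ^ i) (y : ↥K) : ↥K) : Qb) :=
    map_prod K.val _ _
  rw [h4]
  exact (Finset.prod_congr rfl (fun i _ => h10g_restr_pow_coe hcyc σ hcyc.mem i (y : ↥K))).symm

end Fermat.Agent.PT.Glob
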