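import Fermat.Agent.PT.Loc.H34LFPow
import Fermat.Agent.PT.Glob.FI.H46Split
import Fermat.Agent.PT.Glob.Dict.H10HasseNorm

/-!
# W3-PT / PT-GLOB / GLOB-HNREL (helper10): `GHasseNorm` from `IfaceHN` alone

`FISplit` (`h46u_fiSplit`, helper46) and `LFPow` (`h34lf_lfPow`, helper34) are landed.
-/

set_option autoImplicit false

namespace Fermat.Agent.PT.Glob

/-- **GLOB-HNREL**: the relative Hasse norm theorem follows from `IfaceHN` (`Glob/Core.lean`). -/
theorem gHasseNorm_of (hHN : IfaceHN) : GHasseNorm :=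
  h10g_gHasseNorm_of hHN h46u_fiSplit Fermat.Agent.PT.Loc.h34lf_lfPow

end Fermat.Agent.PT.Glob
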