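import Fermat.Agent.PT.Loc.H34LFPow
import Fermat.Agent.PT.Glob.Dict.H10Index

/-!
# W3-PT / PT-GLOB / GLOB-DICT (helper10): `FILocalIndex` from `NIMain` alone

`LFPow` is landed (`h34lf_lfPow`, helper34), so `FILocalIndex` only depends on `NIMain`.
-/

set_option autoImplicit false

namespace Fermat.Agent.PT.Glob

open Fermat.Agent.PT.Loc

/-- **FI-L1** from `NIMain` alone. -/
theorem h10d_fiLocalIndex_of_niMain (hNI : NIMain) : FILocalIndex :=
  h10d_fiLocalIndex hNI h34lf_lfPow

end Fermat.Agent.PT.Glob
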